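import Fermat.Agent.CFT.K.Datum
import Fermat.Agent.GAL.CycloChar

set_option autoImplicit false

open ExtCitation

namespace Fermat.Agent.CFT

variable {p : ℕ} [Fact p.Prime]

theorem cycloChar_eq_gal (σ : GQ) : cycloChar p σ = Fermat.Agent.GAL.cycloChar p σ := rfl

/-- `ℚ(ζ_p)` is unramified outside `S ∋ p` and `χ_p` is trivial on its fixing subgroup. -/
theorem exists_unramified_cyclo (S : Finset Nat.Primes) (hpS : pPrime p ∈ S) :
    ∃ F : IntermediateField ℚ Qb, F.IsUnramifiedOutside S ∧
      ∀ s ∈ F.fixingSubgroup, cycloChar p s = 1 := by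
  obtain ⟨ζ, hζ⟩ := Fermat.Agent.GAL.exists_primitiveRoot_Zbar p
  refine ⟨IntermediateField.adjoin ℚ {(ζ : Qb)}, ⟨IntermediateField.adjoin.finiteDimensional
    (Algebra.IsIntegral.isIntegral (R := ℚ) (ζ : Qb)), fun q hq A hA g hg => ?_⟩, fun s hs => ?_⟩
  · have hqp : (q : ℕ) ≠ p := by
      intro h
      apply hq
      have : q = pPrime p := Subtype.ext h
      rw [this]; exact hpS
    have h1 : Fermat.Agent.GAL.cycloChar p g = 1 :=
      Fermat.Agent.GAL.cycloChar_of_mem_inertia q.2 hqp hA hg
    have h2 := Fermat.Agent.GAL.cycloChar_spec p g hζ.pow_eq_one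
    rw [h1, Units.val_one, ZMod.val_one, pow_one] at h2
    rw [IntermediateField.mem_fixingSubgroup_iff]
    have hle : IntermediateField.adjoin ℚ {(ζ : Qb)} ≤
        IntermediateField.fixedField (Subgroup.zpowers g) := by
      rw [IntermediateField.adjoin_simple_le_iff, IntermediateField.mem_fixedField_iff]
      intro τ hτ
      obtain ⟨n, rfl⟩ := Subgroup.mem_zpowers_iff.1 hτ
      have hstab : g ∈ MulAction.stabilizer GQ (ζ : Qb) := h2
      exact (MulAction.stabilizer GQ (ζ : Qb)).zpow_mem hstab n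
    intro x hx
    have := hle hx
    rw [IntermediateField.mem_fixedField_iff] at this
    exact this g (Subgroup.mem_zpowers g)
  · rw [IntermediateField.mem_fixingSubgroup_iff] at hs
    have h1 : s (ζ : Qb) = (ζ : Qb) ^ 1 := by
      rw [pow_one]
      exact hs _ (IntermediateField.mem_adjoin_simple_self ℚ _)
    have h2 := Fermat.Agent.GAL.cycloChar_eq_of_primitiveRoot p s hζ h1
    rw [cycloChar_eq_gal]
    exact Units.ext (by simpa using h2)

end Fermat.Agent.CFT
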