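import Fermat.Agent.CFT.K.Datum
import Fermat.Agent.CFT.F.Basic
import Fermat.Agent.CFT.Local.ShaIff
import Fermat.Agent.Common.PlaceBridge
import Fermat.Agent.CFT.K.BridgeCyclo

/-!
# CFT / Part K, WPs B1-B5 : bridge between the frozen `sha₁`, `sha₂` and `(DS S).Sha1`, `(DS S).Sha2`,
and the deduction of S55 from `AbstractPT`.

Ingredients: normal closure of a field unramified outside `S` is unramified outside `S`
(`IsUnramifiedOutside` quantifies over all places); density of the image of the frozen local group in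
the decomposition group (`Fermat/Agent/CFT/Local/Dens.lean`, helper19); cohomology of the archimedean
group (order ≤ 2) vanishes for `p` odd.
-/

set_option autoImplicit false

open ExtCitation groupCohomology Module
open scoped Pointwise

namespace Fermat.Agent.CFT

local instance isAlgebraicQbar_kb : Algebra.IsAlgebraic ℚ (AlgebraicClosure ℚ) :=
  AlgebraicClosure.isAlgebraic ℚ
local instance isAlgClosureQbar_kb : IsAlgClosure ℚ (AlgebraicClosure ℚ) :=
  ⟨inferInstance, inferInstance⟩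
local instance normalQbar_kb : Normal ℚ (AlgebraicClosure ℚ) :=
  IsAlgClosure.normal ℚ (AlgebraicClosure ℚ)
local instance isGaloisQbar_kb : IsGalois ℚ (AlgebraicClosure ℚ) where

/-- The normal closure of a field unramified outside `S` is unramified outside `S`. -/
theorem isUnramifiedOutside_normalClosure {S : Finset Nat.Primes}
    {F : IntermediateField ℚ Qb} (hF : F.IsUnramifiedOutside S) :
    (IntermediateField.normalClosure ℚ F Qb).IsUnramifiedOutside S := by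
  have := hF.1
  refine ⟨inferInstance, fun q hq A hA g hg => ?_⟩
  rw [IntermediateField.mem_fixingSubgroup_iff]
  have hle : IntermediateField.normalClosure ℚ F Qb ≤
      IntermediateField.fixedField (Subgroup.zpowers g) := by
    refine (IntermediateField.normalClosure_def'' F).le.trans ?_
    refine iSup_le fun σ => ?_
    rintro _ ⟨y, hy, rfl⟩
    rw [IntermediateField.mem_fixedField_iff]
    have key : g (σ y) = σ y := by
      have h1 : σ⁻¹ * g * σ ∈ (σ⁻¹ • A).inertiaSubgroupIn ℚ := by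
        rw [Fermat.Agent.Bridge.mem_inertia_smul_iff q.2 hA]
        simpa [mul_assoc] using hg
      have h2 := hF.2 q hq _ (Fermat.Agent.Bridge.liesOverPrime_smul hA σ⁻¹) h1
      rw [IntermediateField.mem_fixingSubgroup_iff] at h2
      have h3 : (σ⁻¹ * g * σ) y = y := h2 y hy
      have h4 : σ ((σ⁻¹ * g * σ) y) = g (σ y) := by
        simp [AlgEquiv.mul_apply]
      rw [← h4, h3]
    intro τ hτ
    obtain ⟨n, rfl⟩ := Subgroup.mem_zpowers_iff.1 hτ
    have hstab : g ∈ MulAction.stabilizer GQ (σ y) := key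
    exact (MulAction.stabilizer GQ (σ y)).zpow_mem hstab n
  intro x hx
  have := hle hx
  rw [IntermediateField.mem_fixedField_iff] at this
  exact this g (Subgroup.mem_zpowers g)

theorem normal_normalClosure (F : IntermediateField ℚ Qb) :
    Normal ℚ ↥(IntermediateField.normalClosure ℚ F Qb) :=
  normalClosure.normal ℚ F Qb

theorem exists_levS_le {S : Finset Nat.Primes} {F : IntermediateField ℚ Qb}
    (hF : F.IsUnramifiedOutside S) : ∃ U ∈ (levS S).carrier, U ≤ F.fixingSubgroup :=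
  ⟨_, ⟨_, isUnramifiedOutside_normalClosure hF, normal_normalClosure F, rfl⟩,
    IntermediateField.fixingSubgroup_antitone (IntermediateField.le_normalClosure F)⟩

theorem exists_levAll_le (F : IntermediateField ℚ Qb) [FiniteDimensional ℚ F] :
    ∃ U ∈ levAll.carrier, U ≤ F.fixingSubgroup :=
  ⟨_, ⟨_, inferInstance, normal_normalClosure F, rfl⟩,
    IntermediateField.fixingSubgroup_antitone (IntermediateField.le_normalClosure F)⟩

variable (S : Finset Nat.Primes)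

/-! ### B1 : level-constancy -/
theorem LC1_levS_iff {X : Type} (f : GQ → X) : (levS S).LC1 f ↔ IsLevelConstantS₁ S f := by
  constructor
  · rintro ⟨_, ⟨F, hF, _, rfl⟩, h⟩
    exact ⟨F, hF, h⟩
  · rintro ⟨F, hF, h⟩
    obtain ⟨U, hU, hle⟩ := exists_levS_le hF
    exact ⟨U, hU, fun g s hs => h g s (hle hs)⟩

theorem LC2_levS_iff {X : Type} (f : GQ × GQ → X) : (levS S).LC2 f ↔ IsLevelConstantS₂ S f := by
  constructor
  · rintro ⟨_, ⟨F, hF, _, rfl⟩, h⟩
    exact ⟨F, hF, h⟩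
  · rintro ⟨F, hF, h⟩
    obtain ⟨U, hU, hle⟩ := exists_levS_le hF
    exact ⟨U, hU, fun g g' s s' hs hs' => h g g' s s' (hle hs) (hle hs')⟩

theorem LC1_comap_levAll_iff {H : Type} [Group H] (r : H →* GQ) {X : Type} (f : H → X) :
    (levAll.comap r).LC1 f ↔ IsLevelConstant₁ r f := by
  constructor
  · rintro ⟨_, ⟨_, ⟨F, hF, _, rfl⟩, rfl⟩, h⟩
    exact ⟨F, hF, h⟩
  · rintro ⟨F, hF, h⟩
    obtain ⟨U, hU, hle⟩ := exists_levAll_le F
    exact ⟨_, ⟨U, hU, rfl⟩, fun g s hs => h g s (hle hs)⟩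

theorem LC2_comap_levAll_iff {H : Type} [Group H] (r : H →* GQ) {X : Type} (f : H × H → X) :
    (levAll.comap r).LC2 f ↔ IsLevelConstant₂ r f := by
  constructor
  · rintro ⟨_, ⟨_, ⟨F, hF, _, rfl⟩, rfl⟩, h⟩
    exact ⟨F, hF, h⟩
  · rintro ⟨F, hF, h⟩
    obtain ⟨U, hU, hle⟩ := exists_levAll_le F
    exact ⟨_, ⟨U, hU, rfl⟩, fun g g' s s' hs hs' => h g g' s s' (hle hs) (hle hs')⟩

variable {p : ℕ} [Fact p.Prime]

/-! ### B2 : smoothness -/
theorem isSmooth_levS (M : Rep (ZMod p) GQ) [FiniteDimensional (ZMod p) M]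
    (hsm : ∀ m : M, ∃ F : IntermediateField ℚ Qb, FiniteDimensional ℚ F ∧
      ∀ s ∈ F.fixingSubgroup, M.ρ s m = m)
    (hMur : ∀ q : Nat.Primes, q ∉ S → ∀ A : ValuationSubring Qb,
      A.LiesOverPrime (q : ℕ) → ∀ g ∈ A.inertiaSubgroupIn ℚ, M.ρ g = 1) :
    IsSmooth (levS S) M.ρ := by
  have h1 : IsSmooth levAll M.ρ := by
    intro m
    obtain ⟨F, hF, h⟩ := hsm m
    obtain ⟨U, hU, hle⟩ := exists_levAll_le F
    exact ⟨U, hU, fun s hs => h s (hle hs)⟩
  obtain ⟨_, ⟨F, hF, _, rfl⟩, hU⟩ := h1.exists_trivial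
  have hker : F.fixingSubgroup ≤ M.ρ.ker := by
    intro s hs
    rw [MonoidHom.mem_ker]
    exact LinearMap.ext fun v => hU s hs v
  have hopen : IsOpen (M.ρ.ker : Set GQ) :=
    Subgroup.isOpen_mono hker (IntermediateField.fixingSubgroup_isOpen F)
  let H : ClosedSubgroup GQ := ⟨M.ρ.ker, Subgroup.isClosed_of_isOpen _ hopen⟩
  let F' : IntermediateField ℚ Qb := IntermediateField.fixedField M.ρ.ker
  have hF' : F'.fixingSubgroup = M.ρ.ker := InfiniteGalois.fixingSubgroup_fixedField H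
  have hle : F' ≤ F := by
    have := IntermediateField.fixedField_antitone hker
    rwa [InfiniteGalois.fixedField_fixingSubgroup] at this
  have hfin : FiniteDimensional ℚ F' :=
    FiniteDimensional.of_injective (IntermediateField.inclusion hle).toLinearMap
      (IntermediateField.inclusion_injective hle)
  have hur : F'.IsUnramifiedOutside S := by
    refine ⟨hfin, fun q hq A hA g hg => ?_⟩
    rw [hF', MonoidHom.mem_ker]
    exact hMur q hq A hA g hg
  intro m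
  obtain ⟨U, hU, hle'⟩ := exists_levS_le hur
  refine ⟨U, hU, fun s hs => ?_⟩
  have hs' := hle' hs
  rw [hF', MonoidHom.mem_ker] at hs'
  rw [hs']; rfl

theorem cycloChar_smooth (hpS : pPrime p ∈ S) :
    ∃ U ∈ (levS S).carrier, ∀ s ∈ U, cycloChar p s = 1 := by
  obtain ⟨F, hF, h⟩ := exists_unramified_cyclo S hpS
  obtain ⟨U, hU, hle⟩ := exists_levS_le hF
  exact ⟨U, hU, fun s hs => h s (hle hs)⟩

/-! ### Cocycles and coboundaries: Part F versus Mathlib / Prelude -/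

section Dict

variable {S}
variable {k : Type} [CommRing k] (A : Rep k GQ)

theorem d12_eq_zero_iff (c : GQ → A) : d12 A.ρ c = 0 ↔ c ∈ cocycles₁ A := by
  rw [mem_cocycles₁_iff]
  constructor
  · intro h g g'
    have := congrFun h (g, g')
    simp only [d12_apply, Pi.zero_apply] at this
    rw [sub_add_eq_add_sub, sub_eq_zero] at this
    exact this.symm
  · intro h
    funext ⟨g, g'⟩
    simp only [d12_apply, Pi.zero_apply]
    rw [sub_add_eq_add_sub, sub_eq_zero]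
    exact (h g g').symm

theorem d23_eq_zero_iff (c : GQ × GQ → A) : d23 A.ρ c = 0 ↔ c ∈ cocycles₂ A := by
  rw [mem_cocycles₂_iff]
  constructor
  · intro h g g' g''
    have := congrFun h (g, g', g'')
    simp only [d23_apply, Pi.zero_apply] at this
    rw [sub_eq_zero, sub_add_eq_add_sub, sub_eq_iff_eq_add] at this
    rw [this, add_comm]
  · intro h
    funext ⟨g, g', g''⟩
    simp only [d23_apply, Pi.zero_apply]
    rw [sub_eq_zero, sub_add_eq_add_sub, sub_eq_iff_eq_add, ← h g g' g'', add_comm]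

variable (S)

theorem mem_B2_levS_iff (c : GQ × GQ → A) :
    c ∈ B2 (levS S) A.ρ ↔ c ∈ levelCoboundariesS₂ S A := by
  rw [mem_levelCoboundariesS₂_iff]
  constructor
  · rintro ⟨x, hx, rfl⟩
    exact ⟨x, (LC1_levS_iff S x).1 hx, rfl⟩
  · rintro ⟨x, hx, rfl⟩
    exact ⟨x, (LC1_levS_iff S x).2 hx, rfl⟩

theorem mem_Z2_levS_iff (c : GQ × GQ → A) :
    c ∈ Z2 (levS S) A.ρ ↔ c ∈ levelCocyclesS₂ S A := by
  rw [mem_levelCocyclesS₂_iff, ← d23_eq_zero_iff, ← LC2_levS_iff]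
  rfl

theorem mem_Z1_levS_iff (c : GQ → A) :
    c ∈ Z1 (levS S) A.ρ ↔ c ∈ cocycles₁ A ∧ IsLevelConstantS₁ S c := by
  rw [← d12_eq_zero_iff, ← LC1_levS_iff]
  rfl

theorem mem_ShaZ1_iff (c : GQ → A) :
    c ∈ (DS S).ShaZ1 A.ρ ↔ (c ∈ cocycles₁ A ∧ IsLevelConstantS₁ S c) ∧
      ∀ q ∈ S, ∃ m : A, ∀ σ ∈ decomp q, c σ = A.ρ σ m - m := by
  rw [← mem_Z1_levS_iff]
  refine and_congr Iff.rfl ?_
  constructor
  · intro h q hq
    obtain ⟨m, hm⟩ := h ⟨q, hq⟩ (Set.mem_univ _)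
    exact ⟨m, fun σ hσ => (congrFun hm ⟨σ, hσ⟩).symm⟩
  · intro h q _
    obtain ⟨m, hm⟩ := h q.1 q.2
    exact ⟨m, funext fun σ => (hm σ.1 σ.2).symm⟩

theorem mem_ShaZ2_iff (c : GQ × GQ → A) :
    c ∈ (DS S).ShaZ2 A.ρ ↔ c ∈ levelCocyclesS₂ S A ∧
      ∀ q ∈ S, ∃ y : GQ → A, IsLevelConstant₁ (MonoidHom.id _) y ∧
        ∀ σ ∈ decomp q, ∀ σ' ∈ decomp q, c (σ, σ') = A.ρ σ (y σ') - y (σ * σ') + y σ := by
  rw [← mem_Z2_levS_iff]
  refine and_congr Iff.rfl ?_
  constructor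
  · intro h q hq
    obtain ⟨x, hx, hxc⟩ := h ⟨q, hq⟩ (Set.mem_univ _)
    obtain ⟨y, hy, hyx⟩ := Local.exists_descent₁ ((LC1_comap_levAll_iff _ x).1 hx)
    refine ⟨y, hy, fun σ hσ σ' hσ' => ?_⟩
    have h1 := congrFun hxc (⟨σ, hσ⟩, ⟨σ', hσ'⟩)
    have e1 := hyx ⟨σ, hσ⟩
    have e2 := hyx ⟨σ', hσ'⟩
    have e3 := hyx (⟨σ, hσ⟩ * ⟨σ', hσ'⟩)
    simp only [Subgroup.subtype_apply, Subgroup.coe_mul] at e1 e2 e3
    rw [e1, e2, e3]
    exact h1.symm
  · intro h q _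
    obtain ⟨y, hy, hyc⟩ := h q.1 q.2
    refine ⟨y ∘ (decomp q.1).subtype, (LC1_comap_levAll_iff _ _).2
      (IsLevelConstant₁.precomp _ (fun _ => rfl) hy), ?_⟩
    funext ⟨σ, σ'⟩
    exact (hyc σ.1 σ.2 σ'.1 σ'.2).symm

theorem local_isSmooth_of_levS {S : Finset Nat.Primes} (A : Rep k GQ)
    (h : IsSmooth (levS S) A.ρ) : Local.IsSmooth A := by
  intro m
  obtain ⟨_, ⟨F, hF, _, rfl⟩, hs⟩ := h m
  exact ⟨F, hF.1, hs⟩

end Dict

/-! ### B3, B4 : the two equivalences -/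

section Equiv

variable (hp2 : p ≠ 2) (A : Rep (ZMod p) GQ) (hsm : Local.IsSmooth A)

/-- `ShaZ1 → H¹(G_ℚ, A)` (Mathlib's abstract `H1`). -/
noncomputable def sha1Map : ↥((DS S).ShaZ1 A.ρ) →ₗ[ZMod p] groupCohomology.H1 A :=
  (H1π A).hom ∘ₗ LinearMap.codRestrict (cocycles₁ A) (Submodule.subtype _)
    (fun c => ((mem_ShaZ1_iff S A c.1).1 c.2).1.1)

theorem ker_sha1Map :
    LinearMap.ker (sha1Map S A) = (B1 A.ρ).submoduleOf ((DS S).ShaZ1 A.ρ) := by
  ext c
  rw [LinearMap.mem_ker]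
  exact H1π_eq_zero_iff _

include hp2 hsm in
theorem range_sha1Map : LinearMap.range (sha1Map S A) = sha₁ S A := by
  ext x
  rw [Local.mem_sha₁_iff hp2 S A hsm x]
  constructor
  · rintro ⟨c, rfl⟩
    obtain ⟨⟨h1, h2⟩, h3⟩ := (mem_ShaZ1_iff S A c.1).1 c.2
    exact ⟨⟨c.1, h1⟩, h2, rfl, h3⟩
  · rintro ⟨c, h2, rfl, h3⟩
    exact ⟨⟨c.1, (mem_ShaZ1_iff S A c.1).2 ⟨⟨c.2, h2⟩, h3⟩⟩, rfl⟩

/-- Part F's `Sha1` of the arithmetic datum is the frozen `sha₁`. -/
noncomputable def sha1Equiv : (DS S).Sha1 A.ρ ≃ₗ[ZMod p] ↥(sha₁ S A) :=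
  (Submodule.quotEquivOfEq _ _ (ker_sha1Map S A).symm).trans
    ((sha1Map S A).quotKerEquivRange.trans (LinearEquiv.ofEq _ _ (range_sha1Map S hp2 A hsm)))

/-- `ShaZ2 → H²_S(G_ℚ, A)` (the frozen `continuousH2S`). -/
noncomputable def sha2Map : ↥((DS S).ShaZ2 A.ρ) →ₗ[ZMod p] continuousH2S S A :=
  continuousH2Sπ S A ∘ₗ LinearMap.codRestrict (levelCocyclesS₂ S A) (Submodule.subtype _)
    (fun c => ((mem_ShaZ2_iff S A c.1).1 c.2).1)

theorem ker_sha2Map :
    LinearMap.ker (sha2Map S A) = (B2 (levS S) A.ρ).submoduleOf ((DS S).ShaZ2 A.ρ) := by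
  ext c
  rw [LinearMap.mem_ker]
  refine (continuousH2Sπ_eq_zero_iff S A _).trans ?_
  exact (mem_B2_levS_iff S A c.1).symm

include hp2 hsm in
theorem range_sha2Map : LinearMap.range (sha2Map S A) = sha₂ S A := by
  ext x
  constructor
  · rintro ⟨c, rfl⟩
    obtain ⟨h1, h2⟩ := (mem_ShaZ2_iff S A c.1).1 c.2
    exact (Local.mk_mem_sha₂_iff hp2 S A hsm ⟨c.1, h1⟩).2 h2
  · intro hx
    obtain ⟨c, rfl⟩ := Submodule.mkQ_surjective _ x
    have h2 := (Local.mk_mem_sha₂_iff hp2 S A hsm c).1 hx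
    exact ⟨⟨c.1, (mem_ShaZ2_iff S A c.1).2 ⟨c.2, h2⟩⟩, rfl⟩

/-- Part F's `Sha2` of the arithmetic datum is the frozen `sha₂`. -/
noncomputable def sha2Equiv : (DS S).Sha2 A.ρ ≃ₗ[ZMod p] ↥(sha₂ S A) :=
  (Submodule.quotEquivOfEq _ _ (ker_sha2Map S A).symm).trans
    ((sha2Map S A).quotKerEquivRange.trans (LinearEquiv.ofEq _ _ (range_sha2Map S hp2 A hsm)))

end Equiv

theorem sha1_equiv (hp2 : p ≠ 2) (A : Rep (ZMod p) GQ) (hA : IsSmooth (levS S) A.ρ) :
    Nonempty (↥(sha₁ S A) ≃ₗ[ZMod p] (DS S).Sha1 A.ρ) :=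
  ⟨(sha1Equiv S hp2 A (local_isSmooth_of_levS A hA)).symm⟩

theorem sha2_equiv (hp2 : p ≠ 2) (M : Rep (ZMod p) GQ) (hM : IsSmooth (levS S) M.ρ) :
    Nonempty (↥(sha₂ S M) ≃ₗ[ZMod p] (DS S).Sha2 M.ρ) :=
  ⟨(sha2Equiv S hp2 M (local_isSmooth_of_levS M hM)).symm⟩

/-! ### B5 : S55 from the abstract theorem -/
theorem exists_pairing_of_finrank_eq {k V W : Type} [Field k] [AddCommGroup V] [Module k V]
    [AddCommGroup W] [Module k W] [FiniteDimensional k V] [FiniteDimensional k W]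
    (h : finrank k V = finrank k W) :
    ∃ B : V →ₗ[k] W →ₗ[k] k, (∀ y, (∀ x, B y x = 0) → y = 0) ∧ (∀ x, (∀ y, B y x = 0) → x = 0) := by
  let e : V ≃ₗ[k] Module.Dual k W :=
    LinearEquiv.ofFinrankEq V (Module.Dual k W) (by rw [h, Subspace.dual_finrank_eq])
  refine ⟨e.toLinearMap, fun y hy => ?_, fun x hx => ?_⟩
  · have : e y = 0 := LinearMap.ext hy
    exact e.map_eq_zero_iff.1 this
  · rw [← Module.forall_dual_apply_eq_zero_iff k x]
    intro φ
    obtain ⟨y, rfl⟩ := e.surjective φ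
    exact hx y

theorem result_of_abstractPT (hp2 : p ≠ 2) (hpS : pPrime p ∈ S)
    (h : (DS S).AbstractPT (cycloChar p))
    (M : Rep (ZMod p) GQ) [FiniteDimensional (ZMod p) M]
    (hsm : ∀ m : M, ∃ F : IntermediateField ℚ Qb, FiniteDimensional ℚ F ∧
      ∀ s ∈ F.fixingSubgroup, M.ρ s m = m)
    (hMur : ∀ q : Nat.Primes, q ∉ S → ∀ A : ValuationSubring Qb,
      A.LiesOverPrime (q : ℕ) → ∀ g ∈ A.inertiaSubgroupIn ℚ, M.ρ g = 1) :
    ∃ B : sha₁ S (M.dualTwist (cycloChar p)) →ₗ[ZMod p] sha₂ S M →ₗ[ZMod p] ZMod p,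
      (∀ y, (∀ x, B y x = 0) → y = 0) ∧ (∀ x, (∀ y, B y x = 0) → x = 0) := by
  have hρ : IsSmooth (levS S) M.ρ := isSmooth_levS S M hsm hMur
  have hρ' : IsSmooth (levS S) (M.ρ.dual.twist (cycloChar p)) :=
    hρ.dualTwist (cycloChar_smooth S hpS)
  obtain ⟨f1, f2, heq⟩ := h M M.ρ hρ
  let e1 := sha1Equiv S hp2 (M.dualTwist (cycloChar p))
    (local_isSmooth_of_levS (M.dualTwist (cycloChar p)) hρ')
  let e2 := sha2Equiv S hp2 M hsm
  have : FiniteDimensional (ZMod p) ↥(sha₁ S (M.dualTwist (cycloChar p))) :=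
    Module.Finite.equiv e1
  have : FiniteDimensional (ZMod p) ↥(sha₂ S M) := Module.Finite.equiv e2
  apply exists_pairing_of_finrank_eq
  rw [← e1.finrank_eq, ← e2.finrank_eq]
  exact heq

end Fermat.Agent.CFT
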