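import Fermat.Agent.CFT.F.Spec
import Fermat.Agent.CFT.F.Lev
import Fermat.Agent.CFT.Coh.Sub
import Fermat.Prelude.Def_GroupCohomology_ContinuousUnramified

/-!
# CFT / Part K : the concrete data.

* `GQ`, `levS S` (levels = fixing subgroups of finite normal `F/ℚ` unramified outside `S`),
  `levAll` (all finite normal `F/ℚ`), `Levels.comap`, `Levels.sub`;
* `DS S`  : `GQ` with `levS S`, local groups = decomposition groups `D_A ≤ GQ`, `A = primeLocalPlace q`;
* `DSfrozen S` : same with the frozen local groups `primeLocalGaloisGroup q`.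
-/

set_option autoImplicit false

open ExtCitation

namespace Fermat.Agent.CFT

/-- `Gal(ℚbar/ℚ)` -/
abbrev Qb : Type := AlgebraicClosure ℚ
abbrev GQ : Type := Qb ≃ₐ[ℚ] Qb

theorem isGalois_Qb : IsGalois ℚ Qb := by
  have h1 : Algebra.IsAlgebraic ℚ (AlgebraicClosure ℚ) := AlgebraicClosure.isAlgebraic ℚ
  have h2 : IsAlgClosure ℚ (AlgebraicClosure ℚ) := ⟨inferInstance, inferInstance⟩
  have h3 : Normal ℚ (AlgebraicClosure ℚ) := IsAlgClosure.normal ℚ (AlgebraicClosure ℚ)
  exact {}

theorem fixingSubgroup_normal (F : IntermediateField ℚ Qb) (hF : Normal ℚ F) :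
    F.fixingSubgroup.Normal := by
  have := isGalois_Qb
  rw [InfiniteGalois.normal_iff_isGalois]
  exact @IsGalois.mk _ _ _ _ _ inferInstance hF

theorem normal_bot_Qb : Normal ℚ (⊥ : IntermediateField ℚ Qb) :=
  Normal.of_algEquiv (IntermediateField.botEquiv ℚ Qb).symm

theorem fixingSubgroup_finiteIndex (F : IntermediateField ℚ Qb) (hF : FiniteDimensional ℚ F) :
    F.fixingSubgroup.FiniteIndex := by
  have := isGalois_Qb
  constructor
  rw [← IntermediateField.finrank_eq_fixingSubgroup_index]
  exact Module.finrank_pos.ne'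

/-- all open normal subgroups of `GQ` -/
def levAll : Levels GQ where
  carrier := {U | ∃ F : IntermediateField ℚ Qb, FiniteDimensional ℚ F ∧ Normal ℚ F ∧
    U = F.fixingSubgroup}
  normal := by
    rintro _ ⟨F, _, hF, rfl⟩
    exact fixingSubgroup_normal F hF
  finiteIndex := by
    rintro _ ⟨F, hF, _, rfl⟩
    exact fixingSubgroup_finiteIndex F hF
  nonempty := ⟨_, ⊥, inferInstance, normal_bot_Qb, rfl⟩
  directed := by
    rintro _ ⟨F, hF, hF', rfl⟩ _ ⟨E, hE, hE', rfl⟩
    exact ⟨_, ⟨F ⊔ E, IntermediateField.finiteDimensional_sup F E, @IntermediateField.normal_sup ℚ Qb _ _ _ F E hF' hE', rfl⟩,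
      IntermediateField.fixingSubgroup_antitone le_sup_left,
      IntermediateField.fixingSubgroup_antitone le_sup_right⟩

/-- the open normal subgroups of `G_S` -/
def levS (S : Finset Nat.Primes) : Levels GQ where
  carrier := {U | ∃ F : IntermediateField ℚ Qb, F.IsUnramifiedOutside S ∧ Normal ℚ F ∧
    U = F.fixingSubgroup}
  normal := by
    rintro _ ⟨F, _, hF, rfl⟩
    exact fixingSubgroup_normal F hF
  finiteIndex := by
    rintro _ ⟨F, hF, _, rfl⟩
    exact fixingSubgroup_finiteIndex F hF.1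
  nonempty := ⟨_, ⊥, IntermediateField.isUnramifiedOutside_bot S, normal_bot_Qb, rfl⟩
  directed := by
    rintro _ ⟨F, hF, hF', rfl⟩ _ ⟨E, hE, hE', rfl⟩
    exact ⟨_, ⟨F ⊔ E, hF.sup hE, @IntermediateField.normal_sup ℚ Qb _ _ _ F E hF' hE', rfl⟩,
      IntermediateField.fixingSubgroup_antitone le_sup_left,
      IntermediateField.fixingSubgroup_antitone le_sup_right⟩

theorem Levels.sub_eq_comap {G : Type} [Group G] (𝒰 : Levels G) (H : Subgroup G) :
    𝒰.sub H = 𝒰.comap H.subtype := rfl

/-- the decomposition group of the distinguished place over `q` -/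
noncomputable abbrev decomp (q : Nat.Primes) : Subgroup GQ :=
  (primeLocalPlace q).decompositionSubgroup ℚ

theorem levS_le_levAll (S : Finset Nat.Primes) : (levS S).carrier ⊆ levAll.carrier := by
  rintro _ ⟨F, hF, hF', rfl⟩
  exact ⟨F, hF.1, hF', rfl⟩

/-- **The datum of S55** (decomposition groups as local groups). -/
noncomputable abbrev DS (S : Finset Nat.Primes) : Datum where
  G := GQ
  lev := levS S
  ι := ↥S
  Gv q := ↥(decomp q.1)
  levv q := levAll.comap (decomp q.1).subtype
  r q := (decomp q.1).subtype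
  cont _ U hU := ⟨_, ⟨U, levS_le_levAll S hU, rfl⟩, le_rfl⟩

/-- the same with the frozen local groups -/
noncomputable abbrev DSfrozen (S : Finset Nat.Primes) : Datum where
  G := GQ
  lev := levS S
  ι := ↥S
  Gv q := primeLocalGaloisGroup q.1
  levv q := levAll.comap (primeLocalToGlobal q.1)
  r q := primeLocalToGlobal q.1
  cont _ U hU := ⟨_, ⟨U, levS_le_levAll S hU, rfl⟩, le_rfl⟩

end Fermat.Agent.CFT
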